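import Mathlib

/-!
# The cartesian property along a filtration
-/

set_option autoImplicit false

namespace Fermat.Agent.QX

/-- If the graded pieces of `W₀, W₁, W₂` satisfy `gr W₁ ∩ gr W₂ ⊂ gr W₀` then two elements
`f ∈ W₁`, `g ∈ W₂` congruent modulo the last step are congruent to an element of `W₀`. -/
theorem cart_of_filtration {F κ : Type*} [AddCommGroup F] {s : ℕ} {Fil : ℕ → AddSubgroup F}
    {gr : ℕ → F → κ} (hanti : ∀ i < s, Fil (i + 1) ≤ Fil i)
    (hgr : ∀ i < s, ∀ x ∈ Fil i, ∀ y ∈ Fil i, gr i x = gr i y ↔ x - y ∈ Fil (i + 1))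
    {W₀ W₁ W₂ : AddSubgroup F} (h₁ : W₀ ≤ W₁) (h₂ : W₀ ≤ W₂)
    (hfull : ∀ i < s, ∀ x ∈ Fil i, ∀ y ∈ Fil i, x ∈ W₁ → y ∈ W₂ → gr i x = gr i y →
      ∃ z ∈ Fil i, z ∈ W₀ ∧ gr i z = gr i x)
    {f g : F} (hf : f ∈ W₁) (hg : g ∈ W₂) (hfO : f ∈ Fil 0) (hfg : f - g ∈ Fil s) :
    ∃ h ∈ W₀, h ∈ Fil 0 ∧ f - h ∈ Fil s := by
  have hanti' : ∀ i ≤ s, Fil s ≤ Fil i := by
    intro i hi
    induction s, hi using Nat.le_induction with
    | base => exact le_rfl
    | succ n hn ih =>
      refine (hanti n (Nat.lt_succ_self n)).trans (ih (fun i hi => hanti i (by omega))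
        (fun i hi => hgr i (by omega)) (fun i hi => hfull i (by omega)) ?_)
      exact hanti n (Nat.lt_succ_self n) hfg
  have hanti0 : ∀ i ≤ s, Fil i ≤ Fil 0 := by
    intro i
    induction i with
    | zero => intro _; exact le_rfl
    | succ i ih => intro hi; exact (hanti i (by omega)).trans (ih (by omega))
  have key : ∀ j ≤ s, ∃ h ∈ W₀, h ∈ Fil 0 ∧ f - h ∈ Fil j := by
    intro j
    induction j with
    | zero => intro _; exact ⟨0, W₀.zero_mem, (Fil 0).zero_mem, by simpa using hfO⟩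
    | succ j ih =>
      intro hj
      obtain ⟨h, hh, hh0, hfh⟩ := ih (by omega)
      have hgh : g - h ∈ Fil j := by
        have : g - h = (f - h) - (f - g) := by abel
        rw [this]
        exact (Fil j).sub_mem hfh (hanti' j (by omega) hfg)
      have hsub : (f - h) - (g - h) ∈ Fil (j + 1) := by
        have : (f - h) - (g - h) = f - g := by abel
        rw [this]
        exact hanti' (j + 1) hj hfg
      have heq : gr j (f - h) = gr j (g - h) := (hgr j (by omega) _ hfh _ hgh).mpr hsub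
      obtain ⟨z, hz, hzW, hzgr⟩ := hfull j (by omega) _ hfh _ hgh
        (W₁.sub_mem hf (h₁ hh)) (W₂.sub_mem hg (h₂ hh)) heq
      refine ⟨h + z, W₀.add_mem hh hzW, (Fil 0).add_mem hh0 (hanti0 j (by omega) hz), ?_⟩
      have := (hgr j (by omega) _ hfh _ hz).mp hzgr.symm
      rwa [sub_sub] at this
  exact key s le_rfl

end Fermat.Agent.QX
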