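import Fermat.Agent.QX.TorsionInj
import Fermat.Agent.RR.Weil
import Fermat.Agent.FF.Degree
import Fermat.Agent.FF.Construct
import Fermat.Agent.Deuring.FFBasic
import Fermat.Agent.Deuring.Sup

/-!
# Triviality of a torsion divisor class from its reduction, in terms of divisors
-/

set_option autoImplicit false

open AlgebraicCurve WithZero Module
open scoped IntermediateField
open Fermat.Agent.RR Fermat.Agent.FF Fermat.Agent.Deuring

namespace Fermat.Agent.QX

section Spaces

variable {K F : Type*} [Field K] [Field F] [Algebra K F] [IsFF K F]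

/-- `L(a (y)_∞ + b (y)_0 - D)`. -/
noncomputable def LL (y : F) (D : Divisor K F) (a b : ℕ) : Submodule K F :=
  riemannRochSpace ((a : ℤ) • zeroDiv (K := K) y⁻¹ + (b : ℤ) • zeroDiv (K := K) y - D)

theorem mem_LL {y : F} {D : Divisor K F} {a b : ℕ} {f : F} (hf : f ≠ 0) :
    f ∈ LL y D a b ↔
      ∀ v : Place K F, D v - (a : ℤ) * max (-v.ord y) 0 - (b : ℤ) * max (v.ord y) 0 ≤ v.ord f := by
  rw [LL, mem_L_iff hf]
  refine forall_congr' fun v => ?_
  rw [Finsupp.sub_apply, Finsupp.add_apply, Finsupp.smul_apply, Finsupp.smul_apply,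
    zeroDiv_apply, zeroDiv_apply, v.ord_inv, smul_eq_mul, smul_eq_mul]
  constructor <;> intro h <;> linarith

instance finite_LL (y : F) (D : Divisor K F) (a b : ℕ) : FiniteDimensional K (LL y D a b) :=
  finite_riemannRochSpace _

theorem LL_mono (y : F) (D : Divisor K F) {a b a' b' : ℕ} (ha : a ≤ a') (hb : b ≤ b') :
    LL y D a b ≤ LL y D a' b' := by
  intro f hf
  rcases eq_or_ne f 0 with rfl | hf0
  · exact Submodule.zero_mem _
  rw [mem_LL hf0] at hf ⊢
  intro v
  refine le_trans ?_ (hf v)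
  have h1 : (a : ℤ) * max (-v.ord y) 0 ≤ (a' : ℤ) * max (-v.ord y) 0 :=
    mul_le_mul_of_nonneg_right (by exact_mod_cast ha) (le_max_right _ _)
  have h2 : (b : ℤ) * max (v.ord y) 0 ≤ (b' : ℤ) * max (v.ord y) 0 :=
    mul_le_mul_of_nonneg_right (by exact_mod_cast hb) (le_max_right _ _)
  linarith

theorem LL_inf_le (y : F) (D : Divisor K F) (a b a' b' : ℕ) :
    LL y D a' b ⊓ LL y D a b' ≤ LL y D a b := by
  rintro f ⟨h1, h2⟩
  rcases eq_or_ne f 0 with rfl | hf0
  · exact Submodule.zero_mem _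
  rw [SetLike.mem_coe, mem_LL hf0] at h1 h2
  rw [mem_LL hf0]
  intro v
  have h1 := h1 v
  have h2 := h2 v
  rcases le_total (v.ord y) 0 with h | h
  · rw [max_eq_right h, mul_zero] at h2 ⊢
    exact h2
  · rw [max_eq_right (show -v.ord y ≤ 0 by omega), mul_zero] at h1 ⊢
    exact h1

theorem mul_mem_LL {y : F} {D D' : Divisor K F} {a b c d : ℕ} {f g : F} (hf : f ∈ LL y D a b)
    (hg : g ∈ LL y D' c d) : f * g ∈ LL y (D + D') (a + c) (b + d) := by
  rcases eq_or_ne f 0 with rfl | hf0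
  · rw [zero_mul]; exact Submodule.zero_mem _
  rcases eq_or_ne g 0 with rfl | hg0
  · rw [mul_zero]; exact Submodule.zero_mem _
  rw [mem_LL hf0] at hf
  rw [mem_LL hg0] at hg
  rw [mem_LL (mul_ne_zero hf0 hg0)]
  intro v
  rw [v.ord_mul hf0 hg0, Finsupp.add_apply]
  have h1 := hf v
  have h2 := hg v
  push_cast
  linarith

omit [IsFF K F] in
theorem ord_pow (v : Place K F) (f : F) (n : ℕ) : v.ord (f ^ n) = n * v.ord f := by
  rw [← zpow_natCast, v.ord_zpow]

theorem pow_mem_LL {y : F} {D : Divisor K F} {a b n : ℕ} {f φ : F} (hφ : φ ≠ 0)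
    (hD : ∀ v : Place K F, (n : ℤ) * D v = v.ord φ) (hf : f ∈ LL y D a b) :
    f ^ n / φ ∈ LL y (0 : Divisor K F) (n * a) (n * b) := by
  rcases Nat.eq_zero_or_pos n with rfl | hn
  · have h1 : f ^ 0 / φ ≠ 0 := by
      rw [pow_zero]
      exact div_ne_zero one_ne_zero hφ
    rw [mem_LL h1]
    intro v
    have h2 := hD v
    rw [pow_zero, div_eq_mul_inv, one_mul, v.ord_inv, ← h2]
    simp
  rcases eq_or_ne f 0 with rfl | hf0
  · rw [zero_pow hn.ne', zero_div]; exact Submodule.zero_mem _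
  rw [mem_LL hf0] at hf
  rw [mem_LL (div_ne_zero (pow_ne_zero n hf0) hφ)]
  intro v
  rw [div_eq_mul_inv, v.ord_mul (pow_ne_zero n hf0) (inv_ne_zero hφ), ord_pow, v.ord_inv, ← hD v,
    Finsupp.zero_apply]
  have h1 := hf v
  have h2 : (0 : ℤ) ≤ n := by positivity
  push_cast
  nlinarith

theorem pow_mul_mem_LL_iff {y : F} (hy : y ≠ 0) {D : Divisor K F} {a b c : ℕ} {f : F} :
    y ^ c * f ∈ LL y D (a + c) b ↔ f ∈ LL y D a (b + c) := by
  rcases eq_or_ne f 0 with rfl | hf0
  · rw [mul_zero]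
    exact ⟨fun _ => Submodule.zero_mem _, fun _ => Submodule.zero_mem _⟩
  rw [mem_LL hf0, mem_LL (mul_ne_zero (pow_ne_zero c hy) hf0)]
  refine forall_congr' fun v => ?_
  rw [v.ord_mul (pow_ne_zero c hy) hf0, ord_pow]
  push_cast
  rcases le_total (v.ord y) 0 with h | h
  · rw [max_eq_right h, max_eq_left (show 0 ≤ -v.ord y by omega)]
    constructor <;> intro h' <;> nlinarith
  · rw [max_eq_left h, max_eq_right (show -v.ord y ≤ 0 by omega)]
    constructor <;> intro h' <;> nlinarith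

theorem one_mem_LL (y : F) (a b : ℕ) : (1 : F) ∈ LL y (0 : Divisor K F) a b := by
  rw [mem_LL one_ne_zero]
  intro v
  rw [v.ord_one, Finsupp.zero_apply]
  have h1 : 0 ≤ (a : ℤ) * max (-v.ord y) 0 := mul_nonneg (by positivity) (le_max_right _ _)
  have h2 : 0 ≤ (b : ℤ) * max (v.ord y) 0 := mul_nonneg (by positivity) (le_max_right _ _)
  linarith

variable {y : F}

theorem finiteResidue_place (v : Place K F) : v.FiniteResidue := ⟨inferInstance⟩

theorem degree_zeroDiv_inv (hy : Transcendental K y) :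
    Divisor.degree (zeroDiv (K := K) y⁻¹) = Divisor.degree (zeroDiv (K := K) y) := by
  rw [degree_zeroDiv hy, degree_zeroDiv (transcendental_inv hy), isFF_nontrivial_adjoin_inv]

theorem degree_LL (hy : Transcendental K y) (D : Divisor K F) (a b : ℕ) :
    Divisor.degree ((a : ℤ) • zeroDiv (K := K) y⁻¹ + (b : ℤ) • zeroDiv (K := K) y - D)
      = ((a + b : ℕ) : ℤ) * finrank K⟮y⟯ F - Divisor.degree D := by
  rw [map_sub, map_add, map_zsmul, map_zsmul, degree_zeroDiv_inv hy, degree_zeroDiv hy]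
  push_cast
  simp only [smul_eq_mul]
  ring

theorem finrank_pos_adjoin (hy : Transcendental K y) : 0 < finrank K⟮y⟯ F := by
  have : FiniteDimensional K⟮y⟯ F := IsFF.finite_adjoin y hy
  exact Module.finrank_pos

/-- The threshold for Riemann--Roch. -/
noncomputable def rrBound (K F : Type*) [Field K] [Field F] [Algebra K F] [IsFF K F]
    (d : ℤ) : ℕ := (2 * (genusFF K F : ℤ) - 2 * ell (0 : Divisor K F) + d + 1).toNat

theorem finrank_LL (hy : Transcendental K y) {D : Divisor K F} {a b : ℕ}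
    (h : rrBound K F (Divisor.degree D) ≤ a + b) :
    (finrank K (LL y D a b) : ℤ) = ((a + b : ℕ) : ℤ) * finrank K⟮y⟯ F - Divisor.degree D
      + ell (0 : Divisor K F) - genusFF K F := by
  have : FiniteDimensional K⟮y⟯ F := IsFF.finite_adjoin y hy
  have : Nonempty (Place K F) := exists_place
  have : ∀ v : Place K F, v.FiniteResidue := finiteResidue_place
  have h1 := ell_eq (K := K) (F := F) y hy
    (D := (a : ℤ) • zeroDiv (K := K) y⁻¹ + (b : ℤ) • zeroDiv (K := K) y - D) ?_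
  · rw [degree_LL hy] at h1
    exact h1
  · rw [degree_LL hy]
    have h2 := finrank_pos_adjoin hy
    rw [rrBound, Int.toNat_le] at h
    have h3 : ((a + b : ℕ) : ℤ) * 1 ≤ ((a + b : ℕ) : ℤ) * finrank K⟮y⟯ F := by
      apply mul_le_mul_of_nonneg_left
      · exact_mod_cast h2
      · positivity
    linarith

end Spaces

section Main

variable {K F k E : Type*} [Field K] [Field F] [Algebra K F] [Field k] [CommRing E]
    [Algebra k E] [IsFF K F] (X : Datum K F k E)

namespace Datum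

variable {X} {y : F}

theorem mem_redSpace_LL_iff (hy : y ∈ X.O) (hy' : y⁻¹ ∈ X.O) (hy0 : y ≠ 0) {D : Divisor K F}
    {a b c : ℕ} {e : E} :
    e ∈ X.redSpace (LL y D a (b + c)) ↔ X.r y ^ c * e ∈ X.redSpace (LL y D (a + c) b) := by
  have hyc : y ^ c ∈ X.O := X.O.pow_mem hy c
  have hyc' : (y⁻¹) ^ c ∈ X.O := X.O.pow_mem hy' c
  have h1 : X.r (y⁻¹ ^ c) * X.r (y ^ c) = 1 := by
    rw [← X.r_mul hyc' hyc, ← mul_pow, inv_mul_cancel₀ hy0, one_pow, X.r_one]
  constructor
  · rintro ⟨f, hf, hfO, rfl⟩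
    exact ⟨y ^ c * f, (pow_mul_mem_LL_iff hy0).mpr hf, X.O.mul_mem hyc hfO,
      by rw [X.r_mul hyc hfO, X.r_pow hy]⟩
  · rintro ⟨g, hg, hgO, hge⟩
    refine ⟨y⁻¹ ^ c * g, ?_, X.O.mul_mem hyc' hgO, ?_⟩
    · rw [← pow_mul_mem_LL_iff hy0, ← mul_assoc, ← mul_pow, mul_inv_cancel₀ hy0, one_pow, one_mul]
      exact hg
    · rw [X.r_mul hyc' hgO, hge, ← mul_assoc, ← X.r_pow hy, h1, one_mul]

/-- **Injectivity of the reduction of torsion classes.**  `n D = div φ`, `ρ φ = 1`, and the
reductions of `L(r (y)_∞ - D)` and `L(r (y)_∞)` agree for `r` large. -/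
theorem isPrincipal_of_redSpace_eq [Nontrivial E] (hyt : Transcendental K y)
    (hy : y ∈ X.O) (hy' : y⁻¹ ∈ X.O) {n : ℕ} (hn : (n : k) ≠ 0) {D : Divisor K F}
    (hD0 : Divisor.degree D = 0) {φ : F} (hφ : φ ∈ X.O) (hrφ : X.r φ = 1)
    (hD : ∀ v : Place K F, (n : ℤ) * D v = v.ord φ) {r₁ : ℕ}
    (hred : ∀ r, r₁ ≤ r → X.redSpace (LL y D r 0) = X.redSpace (LL y (0 : Divisor K F) r 0))
    (hcart : ∀ a b a' b' : ℕ, a ≤ a' → b ≤ b' → r₁ ≤ a + b →
      X.redSpace (LL y (0 : Divisor K F) a' b) ⊓ X.redSpace (LL y (0 : Divisor K F) a b') ≤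
        X.redSpace (LL y (0 : Divisor K F) a b)) :
    AlgebraicCurve.Divisor.IsPrincipal D := by
  have hy0 : y ≠ 0 := by
    rintro rfl
    exact hyt isAlgebraic_zero
  have hφ0 : φ ≠ 0 := by
    rintro rfl
    rw [X.r_zero] at hrφ
    exact zero_ne_one hrφ
  have hred2 : ∀ a b, r₁ ≤ a + b →
      X.redSpace (LL y D a b) = X.redSpace (LL y (0 : Divisor K F) a b) := by
    intro a b hab
    ext e
    have h1 := mem_redSpace_LL_iff (X := X) hy hy' hy0 (D := D) (a := a) (b := 0) (c := b) (e := e)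
    have h2 := mem_redSpace_LL_iff (X := X) hy hy' hy0 (D := 0) (a := a) (b := 0) (c := b) (e := e)
    rw [zero_add] at h1 h2
    rw [h1, h2, hred _ hab]
  set r₂ : ℕ := max r₁ (rrBound K F 0) with hr₂
  have hr1 : r₁ ≤ r₂ := le_max_left _ _
  have hr3 : rrBound K F 0 ≤ r₂ := le_max_right _ _
  have T : X.Twist n φ (LL y D) (LL y 0) r₂ := {
    fin := fun a b => inferInstance
    mono := fun ha hb => LL_mono y D ha hb
    mono' := fun ha hb => LL_mono y 0 ha hb
    inf_le := fun _ _ => LL_inf_le y D _ _ _ _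
    dim := by
      intro a b a' b' ha hb hab
      have h1 := finrank_LL hyt (D := D) (a := a) (b := b) (by rw [hD0]; omega)
      have h2 := finrank_LL hyt (D := D) (a := a') (b := b) (by rw [hD0]; omega)
      have h3 := finrank_LL hyt (D := D) (a := a) (b := b') (by rw [hD0]; omega)
      have h4 := finrank_LL hyt (D := D) (a := a') (b := b') (by rw [hD0]; omega)
      push_cast at h1 h2 h3 h4
      have : (finrank K (LL y D a' b') : ℤ) + finrank K (LL y D a b) ≤
          finrank K (LL y D a' b) + finrank K (LL y D a b') := by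
        rw [h1, h2, h3, h4]
        apply le_of_eq
        ring
      exact_mod_cast this
    mul_mem := by
      intro a b c d f g hf hg
      have := mul_mem_LL hf hg
      rwa [add_zero] at this
    pow_mem := fun hf => pow_mem_LL hφ0 hD hf
    one_mem := one_mem_LL y 0 0
    cart := by
      intro a b a' b' f g ha hb hab hf hfO hg hgO hfg
      have h1 : X.r f ∈ X.redSpace (LL y (0 : Divisor K F) a' b) := by
        rw [← hred2 a' b (by omega)]
        exact ⟨f, hf, hfO, rfl⟩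
      have h2 : X.r f ∈ X.redSpace (LL y (0 : Divisor K F) a b') := by
        rw [← hred2 a b' (by omega), hfg]
        exact ⟨g, hg, hgO, rfl⟩
      have h3 := hcart a b a' b' ha hb (by omega) ⟨h1, h2⟩
      rw [← hred2 a b (by omega)] at h3
      obtain ⟨h, hh, hhO, hhf⟩ := h3
      exact ⟨h, hh, hhO, hhf⟩ }
  have hone : ∀ a b, r₁ ≤ a + b → ∃ f ∈ LL y D a b, f ∈ X.O ∧ X.r f = 1 := by
    intro a b hab
    have h1 : (1 : E) ∈ X.redSpace (LL y (0 : Divisor K F) a b) :=
      ⟨1, one_mem_LL y a b, X.O.one_mem, X.r_one⟩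
    rw [← hred2 a b hab] at h1
    exact h1
  obtain ⟨f, hf, hf0⟩ := T.exists_ne_zero hn hφ hrφ (hone r₁ 0 (by simp)) (hone 0 r₁ (by simp))
  refine ⟨f, hf0, ?_⟩
  rw [mem_LL hf0] at hf
  have h1 : D ≤ RR.div f := by
    intro v
    have := hf v
    rw [div_apply]
    simpa using this
  have : Nonempty (Place K F) := exists_place
  have : ∀ v : Place K F, v.FiniteResidue := finiteResidue_place
  have h2 : D = RR.div f := eq_of_le_of_degree_le h1 (by rw [degree_div, hD0])
  intro v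
  rw [h2, div_apply]

end Datum

end Main

end Fermat.Agent.QX
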