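import Mathlib

/-!
# A local-to-global criterion for `1 ∈ M`

`E` is a `k`-algebra with finitely many "components" `c i : E → κ` (jointly injective up to
nilpotents), `Bb ⊂ E` a subalgebra with `c i (Bb) ⊂ Bt` and `Bt` integral over it.  A point is a
pair `(i, P)`, `P : Bt →ₐ[k] k`.  Let `M ⊂ E` be a `Bb`-submodule such that for every point `x`
there is `h ∈ M` with `h ^ n ∈ Bb`, `x(h) ≠ 0`, taking the same value at all points `y` that agree
with `x` on `Bb`.  Then `1 ∈ M`.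
-/

set_option autoImplicit false

namespace Fermat.Agent.QX

section Points

variable {k E κ : Type*} [Field k] [CommRing E] [Algebra k E] [CommRing κ] [Algebra k κ]
  {ι : Type*} [Finite ι] (c : ι → E →ₐ[k] κ) (Bt : Subalgebra k κ)

/-- the restriction of a component to a subalgebra. -/
def comp (C' : Subalgebra k E) (hC' : ∀ e ∈ C', ∀ i, c i e ∈ Bt) (i : ι) : C' →ₐ[k] Bt :=
  ((c i).comp C'.val).codRestrict Bt fun e => hC' e e.2 i

omit [Finite ι] in
@[simp] theorem coe_comp (C' : Subalgebra k E) (hC' : ∀ e ∈ C', ∀ i, c i e ∈ Bt) (i : ι)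
    (e : C') : ((comp c Bt C' hC' i e : Bt) : κ) = c i e := rfl

/-- a maximal ideal with residue field `k` is the kernel of a point. -/
theorem exists_algHom_of_maximal {R : Type*} [CommRing R] [Algebra k R] (P : Ideal R)
    [P.IsMaximal] (hP : Function.Surjective (algebraMap k (R ⧸ P))) :
    ∃ f : R →ₐ[k] k, ∀ x, f x = 0 ↔ x ∈ P := by
  have hbij : Function.Bijective (Algebra.ofId k (R ⧸ P)) := by
    have : Nontrivial (R ⧸ P) := Ideal.Quotient.nontrivial_iff.mpr (Ideal.IsMaximal.ne_top ‹_›)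
    exact ⟨(algebraMap k (R ⧸ P)).injective, hP⟩
  let e : k ≃ₐ[k] (R ⧸ P) := AlgEquiv.ofBijective (Algebra.ofId k (R ⧸ P)) hbij
  refine ⟨(e.symm : (R ⧸ P) →ₐ[k] k).comp (Ideal.Quotient.mkₐ k P), fun x => ?_⟩
  change e.symm (Ideal.Quotient.mk P x) = 0 ↔ x ∈ P
  rw [EmbeddingLike.map_eq_zero_iff, Ideal.Quotient.eq_zero_iff_mem]

theorem exists_point (hnil : ∀ e : E, (∀ i, c i e = 0) → IsNilpotent e) (C' : Subalgebra k E)
    (hC' : ∀ e ∈ C', ∀ i, c i e ∈ Bt)
    (hint : ∀ i, (comp c Bt C' hC' i : C' →+* Bt).IsIntegral)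
    (hres : ∀ 𝔭 : Ideal Bt, 𝔭.IsMaximal → Function.Surjective (algebraMap k (Bt ⧸ 𝔭)))
    (𝔫 : Ideal C') [h𝔫 : 𝔫.IsMaximal] :
    ∃ i, ∃ P : Bt →ₐ[k] k, ∀ e : C', e ∈ 𝔫 ↔ P (comp c Bt C' hC' i e) = 0 := by
  classical
  have hprime : 𝔫.IsPrime := h𝔫.isPrime
  -- some component has kernel inside `𝔫`
  obtain ⟨i, hi⟩ : ∃ i, RingHom.ker (comp c Bt C' hC' i : C' →+* Bt) ≤ 𝔫 := by
    by_contra hcon
    push Not at hcon
    have h1 : ∀ i, ∃ e : C', comp c Bt C' hC' i e = 0 ∧ e ∉ 𝔫 := by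
      intro i
      obtain ⟨e, he, he'⟩ := Set.not_subset.mp (hcon i)
      exact ⟨e, he, he'⟩
    choose e he he' using h1
    have := Fintype.ofFinite ι
    have h2 : ∏ i, e i ∉ 𝔫 := by
      rw [hprime.prod_mem_iff]
      rintro ⟨i, -, hi⟩
      exact he' i hi
    apply h2
    have h3 : IsNilpotent (((∏ i, e i : C')) : E) := by
      apply hnil
      intro j
      have h4 : comp c Bt C' hC' j (∏ i, e i) = 0 := by
        rw [map_prod]
        exact Finset.prod_eq_zero (Finset.mem_univ j) (he j)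
      have h5 := congrArg (Subtype.val : Bt → κ) h4
      exact h5
    obtain ⟨N, hN⟩ := h3
    have h4 : (∏ i, e i) ^ N = 0 := by
      apply Subtype.ext
      simpa using hN
    exact hprime.mem_of_pow_mem N (h4 ▸ 𝔫.zero_mem)
  algebraize [(comp c Bt C' hC' i : C' →+* Bt)]
  have hI : Algebra.IsIntegral C' Bt := ⟨fun x => hint i x⟩
  obtain ⟨𝔭, h𝔭, hcomap⟩ := Ideal.exists_ideal_over_maximal_of_isIntegral (S := Bt) 𝔫 hi
  obtain ⟨P, hP⟩ := exists_algHom_of_maximal 𝔭 (hres 𝔭 h𝔭)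
  refine ⟨i, P, fun e => ?_⟩
  rw [hP, ← hcomap, Ideal.mem_comap]
  rfl

variable {c Bt}

/-- two `k`-points with the same kernel agree. -/
theorem eq_of_ker_le {R : Type*} [CommRing R] [Algebra k R] (f g : R →ₐ[k] k)
    (h : ∀ x, f x = 0 → g x = 0) : f = g := by
  ext x
  have h1 : f (x - algebraMap k R (f x)) = 0 := by
    rw [map_sub, AlgHom.commutes, Algebra.algebraMap_self, RingHom.id_apply, sub_self]
  have h2 := h _ h1
  rw [map_sub, AlgHom.commutes, Algebra.algebraMap_self, RingHom.id_apply, sub_eq_zero] at h2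
  exact h2.symm

theorem one_mem_of_points (hnil : ∀ e : E, (∀ i, c i e = 0) → IsNilpotent e)
    (Bb : Subalgebra k E) (hBb : ∀ e ∈ Bb, ∀ i, c i e ∈ Bt)
    (hint : ∀ i, (comp c Bt Bb hBb i : Bb →+* Bt).IsIntegral)
    (hres : ∀ 𝔭 : Ideal Bt, 𝔭.IsMaximal → Function.Surjective (algebraMap k (Bt ⧸ 𝔭)))
    {n : ℕ} (hn : (n : k) ≠ 0) (M : Submodule Bb E)
    (hM : ∀ (i : ι) (P : Bt →ₐ[k] k), ∃ h ∈ M, h ^ n ∈ Bb ∧ ∃ hh : ∀ i, c i h ∈ Bt,
      P ⟨c i h, hh i⟩ ≠ 0 ∧ ∀ (i' : ι) (P' : Bt →ₐ[k] k),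
        (∀ b : Bb, P' (comp c Bt Bb hBb i' b) = P (comp c Bt Bb hBb i b)) →
          P' ⟨c i' h, hh i'⟩ = P ⟨c i h, hh i⟩) :
    (1 : E) ∈ M := by
  classical
  have hn0 : n ≠ 0 := by
    rintro rfl
    simp at hn
  -- the ideal of elements of `Bb` in `M`
  let I : Ideal Bb := M.comap (Algebra.linearMap Bb E)
  suffices hI : I = ⊤ by
    have h1 : (1 : Bb) ∈ I := hI ▸ Submodule.mem_top
    simpa [I] using h1
  by_contra hI
  obtain ⟨𝔪, h𝔪, hI𝔪⟩ := Ideal.exists_le_maximal I hI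
  obtain ⟨i, P, hP⟩ := exists_point c Bt hnil Bb hBb hint hres 𝔪
  obtain ⟨h, hhM, hhn, hh, hne, hsame⟩ := hM i P
  set η : k := P ⟨c i h, hh i⟩ with hη
  -- the subring generated by `h`
  let C₀ : Subalgebra Bb E := Algebra.adjoin Bb {h}
  let C' : Subalgebra k E := C₀.restrictScalars k
  have hhC : h ∈ C' := Algebra.self_mem_adjoin_singleton Bb h
  have hBbC : ∀ b ∈ Bb, b ∈ C' := fun b hb => C₀.algebraMap_mem ⟨b, hb⟩
  have hC' : ∀ e ∈ C', ∀ i, c i e ∈ Bt := by
    intro e he i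
    refine Algebra.adjoin_induction (p := fun e _ => c i e ∈ Bt) ?_ ?_ ?_ ?_
      (show e ∈ Algebra.adjoin Bb {h} from he)
    · rintro x rfl
      exact hh i
    · intro r
      exact hBb r r.2 i
    · intro x y _ _ hx hy
      rw [map_add]
      exact Bt.add_mem hx hy
    · intro x y _ _ hx hy
      rw [map_mul]
      exact Bt.mul_mem hx hy
  let incl : Bb →ₐ[k] C' := Subalgebra.inclusion hBbC
  have hintC : ∀ i, (comp c Bt C' hC' i : C' →+* Bt).IsIntegral := by
    intro i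
    apply RingHom.IsIntegral.tower_top (incl : Bb →+* C') (comp c Bt C' hC' i : C' →+* Bt)
    exact hint i
  let H : C' := ⟨h, hhC⟩
  let J : Ideal C' := 𝔪.map (incl : Bb →+* C')
  -- every point of `C'` over `𝔪` has value `η` at `h`
  have hval : ∀ (i' : ι) (P' : Bt →ₐ[k] k), (∀ b ∈ 𝔪, P' (comp c Bt Bb hBb i' b) = 0) →
      P' ⟨c i' h, hh i'⟩ = η := by
    intro i' P' hker
    apply hsame
    intro b
    have h1 : (P.comp (comp c Bt Bb hBb i)) = (P'.comp (comp c Bt Bb hBb i')) := by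
      apply eq_of_ker_le
      intro x hx
      exact hker x ((hP x).mpr hx)
    exact (DFunLike.congr_fun h1 b).symm
  set G : C' := ∑ l ∈ Finset.range n, H ^ l * (algebraMap k C' η) ^ (n - 1 - l) with hG
  have hmul : G * (H - algebraMap k C' η) = H ^ n - (algebraMap k C' η) ^ n :=
    (Commute.all _ _).geom_sum₂_mul n
  -- the right-hand side is in `J`
  have hRHS : H ^ n - (algebraMap k C' η) ^ n ∈ J := by
    let b : Bb := ⟨h ^ n, hhn⟩ - (algebraMap k Bb η) ^ n
    have hb : b ∈ 𝔪 := by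
      rw [hP]
      have h1 : comp c Bt Bb hBb i ⟨h ^ n, hhn⟩ = (⟨c i h, hh i⟩ : Bt) ^ n := by
        apply Subtype.ext
        simp
      rw [map_sub, h1, map_pow, AlgHom.commutes, map_sub, map_pow, map_pow, AlgHom.commutes]
      simp [hη]
    have h2 : H ^ n - (algebraMap k C' η) ^ n = incl b := by
      apply Subtype.ext
      simp only [b, map_sub, map_pow, AlgHom.commutes]
      rfl
    rw [h2]
    exact Ideal.mem_map_of_mem _ hb
  -- `G` is a unit modulo `J`
  have hGunit : J ⊔ Ideal.span {G} = ⊤ := by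
    by_contra hcon
    obtain ⟨𝔫, h𝔫, hle⟩ := Ideal.exists_le_maximal _ hcon
    obtain ⟨i', P', hP'⟩ := exists_point c Bt hnil C' hC' hintC hres 𝔫
    have hJ : J ≤ 𝔫 := le_sup_left.trans hle
    have hG𝔫 : G ∈ 𝔫 := hle (Ideal.mem_sup_right (Ideal.mem_span_singleton_self G))
    have hker : ∀ b ∈ 𝔪, P' (comp c Bt Bb hBb i' b) = 0 := by
      intro b hb
      exact (hP' (incl b)).mp (hJ (Ideal.mem_map_of_mem _ hb))
    have hη' := hval i' P' hker
    have hH : (P'.comp (comp c Bt C' hC' i')) H = η := hη'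
    have h0 : (P'.comp (comp c Bt C' hC' i')) G = 0 := (hP' G).mp hG𝔫
    rw [hG, map_sum] at h0
    have h1 : ∀ l ∈ Finset.range n, (P'.comp (comp c Bt C' hC' i'))
        (H ^ l * (algebraMap k C' η) ^ (n - 1 - l)) = η ^ (n - 1) := by
      intro l hl
      rw [Finset.mem_range] at hl
      rw [map_mul, map_pow, map_pow, hH, AlgHom.commutes, Algebra.algebraMap_self,
        RingHom.id_apply, ← pow_add]
      congr 1
      omega
    rw [Finset.sum_congr rfl h1, Finset.sum_const, Finset.card_range, nsmul_eq_mul] at h0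
    exact (mul_ne_zero hn (pow_ne_zero _ hne)) h0
  have hzJ : H - algebraMap k C' η ∈ J := by
    have h1 : (1 : C') ∈ J ⊔ Ideal.span {G} := hGunit ▸ Submodule.mem_top
    obtain ⟨j, hj, g, hg, hjg⟩ := Submodule.mem_sup.mp h1
    obtain ⟨a, rfl⟩ := Ideal.mem_span_singleton'.mp hg
    have h2 : H - algebraMap k C' η
        = j * (H - algebraMap k C' η) + a * (G * (H - algebraMap k C' η)) := by
      rw [← mul_assoc, ← add_mul, hjg, one_mul]
    rw [h2, hmul]
    exact J.add_mem (J.mul_mem_right _ hj) (J.mul_mem_left _ hRHS)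
  -- Nakayama
  let Q₀ : Submodule Bb C₀ := LinearMap.range (Algebra.linearMap Bb C₀)
  have hfg : Module.Finite Bb C₀ := by
    have h1 : IsIntegral Bb h := by
      refine ⟨Polynomial.X ^ n - Polynomial.C ⟨h ^ n, hhn⟩, Polynomial.monic_X_pow_sub_C _ hn0, ?_⟩
      simp only [Polynomial.eval₂_sub, Polynomial.eval₂_pow, Polynomial.eval₂_X,
        Polynomial.eval₂_C]
      exact sub_self _
    exact Module.Finite.iff_fg.mpr h1.fg_adjoin_singleton
  have h6 : ∀ (u v : C₀), v ∈ 𝔪 • (⊤ : Submodule Bb C₀) →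
      u * v ∈ 𝔪 • (⊤ : Submodule Bb C₀) := by
    intro u v hv
    refine Submodule.smul_induction_on hv ?_ ?_
    · intro r hr z _
      rw [mul_smul_comm]
      exact Submodule.smul_mem_smul hr Submodule.mem_top
    · intro u' v' hu hv
      rw [mul_add]
      exact Submodule.add_mem _ hu hv
  let J' : Ideal C' :=
    { carrier := {y | (show C₀ from y) ∈ 𝔪 • (⊤ : Submodule Bb C₀)}
      add_mem' := fun {a b} ha hb => Submodule.add_mem (𝔪 • (⊤ : Submodule Bb C₀)) ha hb
      zero_mem' := Submodule.zero_mem (𝔪 • (⊤ : Submodule Bb C₀))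
      smul_mem' := fun a b hb => h6 a b hb }
  have hJJ' : J ≤ J' := by
    apply Ideal.map_le_iff_le_comap.mpr
    intro b hb
    have : (show C₀ from incl b) = b • (1 : C₀) := by
      rw [Algebra.smul_def, mul_one]
      rfl
    change (show C₀ from incl b) ∈ 𝔪 • (⊤ : Submodule Bb C₀)
    rw [this]
    exact Submodule.smul_mem_smul hb Submodule.mem_top
  have hcover : ∀ x : C₀, ∃ b : Bb, x - algebraMap Bb C₀ b ∈ 𝔪 • (⊤ : Submodule Bb C₀) := by
    intro x
    have h3 : x ∈ Algebra.adjoin Bb {(⟨h, hhC⟩ : C₀)} := by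
      have h4 : Algebra.adjoin Bb {(⟨h, hhC⟩ : C₀)} = ⊤ := by
        have h5 := Algebra.adjoin_adjoin_coe_preimage (R := Bb) (s := {h})
        rw [← h5]
        congr 1
        ext y
        simp [Subtype.ext_iff]
      rw [h4]
      exact Algebra.mem_top
    induction h3 using Algebra.adjoin_induction with
    | mem y hy =>
      rw [Set.mem_singleton_iff] at hy
      subst hy
      refine ⟨algebraMap k Bb η, ?_⟩
      exact hJJ' hzJ
    | algebraMap r => exact ⟨r, by rw [sub_self]; exact Submodule.zero_mem _⟩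
    | add y z _ _ hy hz =>
      obtain ⟨b, hb⟩ := hy
      obtain ⟨b', hb'⟩ := hz
      refine ⟨b + b', ?_⟩
      rw [map_add, add_sub_add_comm]
      exact Submodule.add_mem _ hb hb'
    | mul y z _ _ hy hz =>
      obtain ⟨b, hb⟩ := hy
      obtain ⟨b', hb'⟩ := hz
      refine ⟨b * b', ?_⟩
      have h7 : y * z - algebraMap Bb C₀ (b * b') = y * (z - algebraMap Bb C₀ b')
          + algebraMap Bb C₀ b' * (y - algebraMap Bb C₀ b) := by
        rw [map_mul]
        ring
      rw [h7]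
      exact Submodule.add_mem _ (h6 _ _ hb') (h6 _ _ hb)
  obtain ⟨r, hr, hrQ⟩ := Submodule.exists_sub_one_mem_and_smul_eq_zero_of_fg_of_le_smul 𝔪
    (⊤ : Submodule Bb (C₀ ⧸ Q₀)) (Module.Finite.fg_top) (by
      rintro x -
      obtain ⟨y, rfl⟩ := Submodule.mkQ_surjective Q₀ x
      obtain ⟨b, hb⟩ := hcover y
      have h1 : Q₀.mkQ y = Q₀.mkQ (y - algebraMap Bb C₀ b) := by
        rw [map_sub]
        have : Q₀.mkQ (algebraMap Bb C₀ b) = 0 := by
          rw [Submodule.mkQ_apply, Submodule.Quotient.mk_eq_zero]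
          exact ⟨b, rfl⟩
        rw [this, sub_zero]
      rw [h1]
      have h2 : Q₀.mkQ (y - algebraMap Bb C₀ b) ∈ (𝔪 • (⊤ : Submodule Bb C₀)).map Q₀.mkQ :=
        ⟨_, hb, rfl⟩
      rw [Submodule.map_smul''] at h2
      exact Submodule.smul_mono le_rfl le_top h2)
  -- `r h ∈ Bb`
  have hrh : ∃ b : Bb, (b : E) = r • h := by
    have h1 := hrQ (Q₀.mkQ ⟨h, hhC⟩) Submodule.mem_top
    rw [← map_smul, Submodule.mkQ_apply, Submodule.Quotient.mk_eq_zero] at h1
    obtain ⟨b, hb⟩ := h1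
    exact ⟨b, congrArg (Subtype.val : C₀ → E) hb⟩
  obtain ⟨b, hb⟩ := hrh
  have hbI : b ∈ I := by
    change (b : E) ∈ M
    rw [hb]
    exact M.smul_mem r hhM
  have hb𝔪 := hI𝔪 hbI
  rw [hP] at hb𝔪
  have h8 : comp c Bt Bb hBb i b = comp c Bt Bb hBb i r * ⟨c i h, hh i⟩ := by
    apply Subtype.ext
    rw [coe_comp, hb]
    change c i ((r : E) * h) = _
    rw [map_mul]
    rfl
  have h9 : P (comp c Bt Bb hBb i r) = 1 := by
    have := (hP _).mp hr
    rw [map_sub, map_sub, map_one, map_one, sub_eq_zero] at this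
    exact this
  rw [h8, map_mul, h9, one_mul] at hb𝔪
  exact hne hb𝔪

end Points

end Fermat.Agent.QX
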