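import Mathlib

/-!
# Triviality of a torsion class from its reduction (abstract form)

`K` is a field with an archimedean valuation ring `A` and residue map `res : A → k`, `F / K` a
field, `O ⊂ F` a subring with a "reduction" `ρ : O → E` to a `k`-algebra `E` (a product of
function fields, or `O / q O`).  Let `φ ∈ F` have `ρ φ = 1` and let `L a b` be the spaces of
functions `f` with `f ^ n / φ ∈ L' (n a) (n b)`.  If the reductions of the spaces `L a b` satisfy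
the conditions (S2), (S3) below then `L 0 0 ≠ 0`.
-/

set_option autoImplicit false

open Module

namespace Fermat.Agent.QX

/-- Reduction data for a subring `O` of `F`. -/
structure Datum (K F k E : Type*) [Field K] [Field F] [Algebra K F] [Field k] [CommRing E]
    [Algebra k E] where
  A : ValuationSubring K
  res : A →+* k
  res_surj : Function.Surjective res
  res_eq_zero_iff : ∀ a : A, res a = 0 ↔ (a : K) ∈ A.nonunits
  arch : ∀ c ∈ A.nonunits, ∀ d : K, d ≠ 0 → ∃ n : ℕ, c ^ n / d ∈ A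
  O : Subring F
  ρ : O →+* E
  algebraMap_mem : ∀ a ∈ A, algebraMap K F a ∈ O
  ρ_algebraMap : ∀ a : A, ρ ⟨algebraMap K F a, algebraMap_mem a a.2⟩ = algebraMap k E (res a)
  inv_mem : ∀ x : O, IsUnit (ρ x) → (x : F)⁻¹ ∈ O
  ortho : ∀ (V : Submodule K F) [FiniteDimensional K V],
    ∃ (b : Basis (Fin (finrank K V)) K V) (hb : ∀ i, ((b i : V) : F) ∈ O),
      LinearIndependent k (fun i => ρ ⟨((b i : V) : F), hb i⟩)

namespace Datum

variable {K F k E : Type*} [Field K] [Field F] [Algebra K F] [Field k] [CommRing E]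
    [Algebra k E] (X : Datum K F k E)

open Classical in
/-- the reduction as a total function. -/
noncomputable def r (f : F) : E := if h : f ∈ X.O then X.ρ ⟨f, h⟩ else 0

theorem r_of_mem {f : F} (h : f ∈ X.O) : X.r f = X.ρ ⟨f, h⟩ := by
  classical
  rw [r, dif_pos h]

theorem smul_mem {a : K} (ha : a ∈ X.A) {f : F} (hf : f ∈ X.O) : a • f ∈ X.O := by
  rw [Algebra.smul_def]
  exact X.O.mul_mem (X.algebraMap_mem a ha) hf

theorem r_smul {a : K} (ha : a ∈ X.A) {f : F} (hf : f ∈ X.O) :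
    X.r (a • f) = X.res ⟨a, ha⟩ • X.r f := by
  rw [X.r_of_mem hf, X.r_of_mem (X.smul_mem ha hf), Algebra.smul_def (X.res ⟨a, ha⟩),
    ← X.ρ_algebraMap ⟨a, ha⟩, ← map_mul]
  congr 1
  ext
  simp [Algebra.smul_def]

theorem r_add {f g : F} (hf : f ∈ X.O) (hg : g ∈ X.O) : X.r (f + g) = X.r f + X.r g := by
  rw [X.r_of_mem hf, X.r_of_mem hg, X.r_of_mem (X.O.add_mem hf hg), ← map_add]; rfl

theorem r_sub {f g : F} (hf : f ∈ X.O) (hg : g ∈ X.O) : X.r (f - g) = X.r f - X.r g := by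
  rw [X.r_of_mem hf, X.r_of_mem hg, X.r_of_mem (X.O.sub_mem hf hg), ← map_sub]; rfl

theorem r_mul {f g : F} (hf : f ∈ X.O) (hg : g ∈ X.O) : X.r (f * g) = X.r f * X.r g := by
  rw [X.r_of_mem hf, X.r_of_mem hg, X.r_of_mem (X.O.mul_mem hf hg), ← map_mul]; rfl

@[simp] theorem r_zero : X.r 0 = 0 := by
  rw [X.r_of_mem X.O.zero_mem]; exact map_zero X.ρ

@[simp] theorem r_one : X.r 1 = 1 := by
  rw [X.r_of_mem X.O.one_mem]; exact map_one X.ρ

theorem r_pow {f : F} (hf : f ∈ X.O) (n : ℕ) : X.r (f ^ n) = X.r f ^ n := by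
  rw [X.r_of_mem hf, X.r_of_mem (X.O.pow_mem hf n), ← map_pow]; rfl

theorem r_sum {ι : Type*} (s : Finset ι) (f : ι → F) (hf : ∀ i ∈ s, f i ∈ X.O) :
    X.r (∑ i ∈ s, f i) = ∑ i ∈ s, X.r (f i) := by
  classical
  induction s using Finset.induction_on with
  | empty => simp
  | insert a s ha ih =>
    rw [Finset.sum_insert ha, Finset.sum_insert ha, X.r_add (hf a (Finset.mem_insert_self a s))
      (X.O.sum_mem fun i hi => hf i (Finset.mem_insert_of_mem hi)),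
      ih fun i hi => hf i (Finset.mem_insert_of_mem hi)]

theorem res_of_nonunit {c : K} (hc : c ∈ X.A.nonunits) (hcA : c ∈ X.A) : X.res ⟨c, hcA⟩ = 0 :=
  (X.res_eq_zero_iff _).mpr hc

theorem mem_of_nonunits {c : K} (hc : c ∈ X.A.nonunits) : c ∈ X.A :=
  X.A.nonunits_subset hc

theorem mul_mem_nonunits {c a : K} (hc : c ∈ X.A.nonunits) (ha : a ∈ X.A) :
    c * a ∈ X.A.nonunits := by
  rw [ValuationSubring.mem_nonunits_iff] at hc ⊢
  rw [← ValuationSubring.valuation_le_one_iff] at ha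
  rw [map_mul]
  exact mul_lt_one_of_nonneg_of_lt_one_left zero_le hc ha

theorem pow_mem_nonunits {c : K} (hc : c ∈ X.A.nonunits) {n : ℕ} (hn : n ≠ 0) :
    c ^ n ∈ X.A.nonunits := by
  obtain ⟨m, rfl⟩ := Nat.exists_eq_succ_of_ne_zero hn
  rw [pow_succ']
  exact X.mul_mem_nonunits hc (pow_mem (X.mem_of_nonunits hc) m)

theorem r_smul_nonunit {c : K} (hc : c ∈ X.A.nonunits) {f : F} (hf : f ∈ X.O) :
    X.r (c • f) = 0 := by
  rw [X.r_smul (X.mem_of_nonunits hc) hf, X.res_of_nonunit hc, zero_smul]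

/-- The coordinates of an integral element in an orthonormal family are integral. -/
theorem coord_mem {ι : Type*} [Fintype ι] {b : ι → F} (hb : ∀ i, b i ∈ X.O)
    (hli : LinearIndependent k (fun i => X.r (b i))) {c : ι → K}
    (hc : ∑ i, c i • b i ∈ X.O) (i : ι) : c i ∈ X.A := by
  classical
  by_contra hi
  obtain ⟨j, _, hj⟩ := Finset.exists_max_image Finset.univ (fun j => X.A.valuation (c j))
    ⟨i, Finset.mem_univ i⟩
  have hjA : c j ∉ X.A := by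
    intro h
    apply hi
    rw [← ValuationSubring.valuation_le_one_iff] at h ⊢
    exact (hj i (Finset.mem_univ i)).trans h
  have hj0 : c j ≠ 0 := fun h => hjA (h ▸ X.A.zero_mem)
  have hquot : ∀ l, (c j)⁻¹ * c l ∈ X.A := by
    intro l
    rw [← ValuationSubring.valuation_le_one_iff, map_mul, map_inv₀]
    have h1 := hj l (Finset.mem_univ l)
    have h2 : X.A.valuation (c j) ≠ 0 := (Valuation.ne_zero_iff _).mpr hj0
    calc (X.A.valuation (c j))⁻¹ * X.A.valuation (c l)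
        ≤ (X.A.valuation (c j))⁻¹ * X.A.valuation (c j) := mul_le_mul_right h1 _
      _ = 1 := inv_mul_cancel₀ h2
  have hnon : (c j)⁻¹ ∈ X.A.nonunits := by
    rw [ValuationSubring.mem_nonunits_iff]
    rw [map_inv₀]
    have h2 : 1 < X.A.valuation (c j) := by
      rw [← not_le, ValuationSubring.valuation_le_one_iff]
      exact hjA
    exact inv_lt_one_of_one_lt₀ h2
  have hsum : (c j)⁻¹ • (∑ l, c l • b l) = ∑ l, ((c j)⁻¹ * c l) • b l := by
    rw [Finset.smul_sum]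
    exact Finset.sum_congr rfl fun l _ => by rw [mul_smul]
  have h1 : X.r ((c j)⁻¹ • (∑ l, c l • b l)) = 0 := X.r_smul_nonunit hnon hc
  have h2 : ∑ l, X.res ⟨(c j)⁻¹ * c l, hquot l⟩ • X.r (b l) = 0 := by
    rw [← h1, hsum, X.r_sum _ _ fun l _ => X.smul_mem (hquot l) (hb l)]
    exact Finset.sum_congr rfl fun l _ => (X.r_smul (hquot l) (hb l)).symm
  have h3 := Fintype.linearIndependent_iff.mp hli _ h2 j
  have h4 : (⟨(c j)⁻¹ * c j, hquot j⟩ : X.A) = 1 := Subtype.ext (inv_mul_cancel₀ hj0)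
  rw [h4, map_one] at h3
  exact one_ne_zero h3

/-- The coordinates of an element of `c O` are in `c A`. -/
theorem coord_dvd {ι : Type*} [Fintype ι] {b : ι → F} (hb : ∀ i, b i ∈ X.O)
    (hli : LinearIndependent k (fun i => X.r (b i))) {e : ι → K} {c : K} {u : F} (hu : u ∈ X.O)
    (hc : ∑ i, e i • b i = c • u) : ∃ a : ι → K, (∀ i, a i ∈ X.A) ∧ ∀ i, e i = c * a i := by
  rcases eq_or_ne c 0 with rfl | hc0
  · refine ⟨0, fun i => X.A.zero_mem, fun i => ?_⟩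
    rw [zero_smul] at hc
    have hinj : ∀ i, e i = 0 := by
      by_contra hne
      push Not at hne
      obtain ⟨i, hi⟩ := hne
      obtain ⟨j, _, hj⟩ := Finset.exists_max_image Finset.univ (fun j => X.A.valuation (e j))
        ⟨i, Finset.mem_univ i⟩
      have hj0 : e j ≠ 0 := by
        intro h0
        have := hj i (Finset.mem_univ i)
        rw [h0, map_zero, le_zero_iff, map_eq_zero] at this
        exact hi this
      have hquot : ∀ l, (e j)⁻¹ * e l ∈ X.A := by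
        intro l
        rw [← ValuationSubring.valuation_le_one_iff, map_mul, map_inv₀]
        have h1 := hj l (Finset.mem_univ l)
        have h2 : X.A.valuation (e j) ≠ 0 := (Valuation.ne_zero_iff _).mpr hj0
        calc (X.A.valuation (e j))⁻¹ * X.A.valuation (e l)
            ≤ (X.A.valuation (e j))⁻¹ * X.A.valuation (e j) := mul_le_mul_right h1 _
          _ = 1 := inv_mul_cancel₀ h2
      have h2 : ∑ l, X.res ⟨(e j)⁻¹ * e l, hquot l⟩ • X.r (b l) = 0 := by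
        rw [← X.r_zero, ← smul_zero (e j)⁻¹, ← hc, Finset.smul_sum]
        simp_rw [← mul_smul]
        rw [X.r_sum _ _ fun l _ => X.smul_mem (hquot l) (hb l)]
        exact Finset.sum_congr rfl fun l _ => (X.r_smul (hquot l) (hb l)).symm
      have h3 := Fintype.linearIndependent_iff.mp hli _ h2 j
      have h4 : (⟨(e j)⁻¹ * e j, hquot j⟩ : X.A) = 1 := Subtype.ext (inv_mul_cancel₀ hj0)
      rw [h4, map_one] at h3
      exact one_ne_zero h3
    rw [hinj i]; simp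
  · refine ⟨fun i => c⁻¹ * e i, fun i => ?_, fun i => by rw [mul_inv_cancel_left₀ hc0]⟩
    refine X.coord_mem (c := fun i => c⁻¹ * e i) hb hli ?_ i
    have : ∑ i, (c⁻¹ * e i) • b i = u := by
      simp_rw [mul_smul]
      rw [← Finset.smul_sum, hc, ← mul_smul, inv_mul_cancel₀ hc0, one_smul]
    rw [this]
    exact hu

/-- An orthonormal basis in terms of `r`. -/
theorem exists_ortho (V : Submodule K F) [FiniteDimensional K V] :
    ∃ b : Basis (Fin (finrank K V)) K V, (∀ i, ((b i : V) : F) ∈ X.O) ∧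
      LinearIndependent k (fun i => X.r ((b i : V) : F)) := by
  obtain ⟨b, hb, hli⟩ := X.ortho V
  refine ⟨b, hb, ?_⟩
  have : (fun i => X.r ((b i : V) : F)) = fun i => X.ρ ⟨((b i : V) : F), hb i⟩ := by
    funext i
    exact X.r_of_mem (hb i)
  rw [this]
  exact hli

/-- Scaling into the unit sphere. -/
theorem exists_scale {f : F} (hf : f ≠ 0) :
    ∃ c : K, c ≠ 0 ∧ c • f ∈ X.O ∧ X.r (c • f) ≠ 0 := by
  obtain ⟨b, hb, hli⟩ := X.exists_ortho (K ∙ f)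
  have h1 : finrank K (K ∙ f) = 1 := finrank_span_singleton hf
  let i : Fin (finrank K (K ∙ f)) := ⟨0, by omega⟩
  obtain ⟨c, hc⟩ := Submodule.mem_span_singleton.mp (b i).2
  have hne := hli.ne_zero i
  refine ⟨c, ?_, hc ▸ hb i, hc ▸ hne⟩
  rintro rfl
  rw [zero_smul] at hc
  apply hne
  change X.r ((b i : (K ∙ f : Submodule K F)) : F) = 0
  rw [← hc, X.r_zero]

/-- every element can be scaled into `O` by an element of `A`. -/
theorem exists_smul_mem (f : F) : ∃ d : K, d ≠ 0 ∧ d ∈ X.A ∧ d • f ∈ X.O := by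
  rcases eq_or_ne f 0 with rfl | hf
  · exact ⟨1, one_ne_zero, X.A.one_mem, by rw [smul_zero]; exact X.O.zero_mem⟩
  obtain ⟨c, hc, hcO, -⟩ := X.exists_scale hf
  rcases X.A.mem_or_inv_mem c with h | h
  · exact ⟨c, hc, h, hcO⟩
  · refine ⟨1, one_ne_zero, X.A.one_mem, ?_⟩
    have := X.smul_mem h hcO
    rwa [← mul_smul, inv_mul_cancel₀ hc] at this

/-- the kernel of the reduction. -/
theorem exists_of_r_eq_zero {f : F} (hf : f ∈ X.O) (h0 : X.r f = 0) :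
    ∃ c ∈ X.A.nonunits, ∃ g ∈ X.O, f = c • g := by
  rcases eq_or_ne f 0 with rfl | hf0
  · exact ⟨0, by rw [ValuationSubring.mem_nonunits_iff, map_zero]; exact zero_lt_one, 0,
      X.O.zero_mem, by simp⟩
  obtain ⟨c, hc, hcO, hne⟩ := X.exists_scale hf0
  refine ⟨c⁻¹, ?_, c • f, hcO, by rw [← mul_smul, inv_mul_cancel₀ hc, one_smul]⟩
  rw [ValuationSubring.mem_nonunits_iff]
  by_contra hnot
  rw [not_lt, map_inv₀] at hnot
  have hcA : c ∈ X.A := by
    rw [← ValuationSubring.valuation_le_one_iff]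
    by_contra hcon
    rw [not_le] at hcon
    exact absurd (inv_lt_one_of_one_lt₀ hcon) (not_lt.mpr hnot)
  exact hne (by rw [X.r_smul hcA hf, h0, smul_zero])

/-! ### Reduction of subspaces -/

/-- The reduction of a `K`-subspace of `F`. -/
def redSpace (V : Submodule K F) : Submodule k E where
  carrier := {w | ∃ f ∈ V, f ∈ X.O ∧ X.r f = w}
  zero_mem' := ⟨0, V.zero_mem, X.O.zero_mem, X.r_zero⟩
  add_mem' := by
    rintro _ _ ⟨f, hf, hfO, rfl⟩ ⟨g, hg, hgO, rfl⟩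
    exact ⟨f + g, V.add_mem hf hg, X.O.add_mem hfO hgO, X.r_add hfO hgO⟩
  smul_mem' := by
    rintro c _ ⟨f, hf, hfO, rfl⟩
    obtain ⟨a, rfl⟩ := X.res_surj c
    exact ⟨(a : K) • f, V.smul_mem _ hf, X.smul_mem a.2 hfO, X.r_smul a.2 hfO⟩

theorem mem_redSpace {V : Submodule K F} {w : E} :
    w ∈ X.redSpace V ↔ ∃ f ∈ V, f ∈ X.O ∧ X.r f = w := Iff.rfl

theorem redSpace_mono {V W : Submodule K F} (h : V ≤ W) : X.redSpace V ≤ X.redSpace W := by
  rintro _ ⟨f, hf, hfO, rfl⟩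
  exact ⟨f, h hf, hfO, rfl⟩

theorem eq_sum_repr {V : Submodule K F} {ι : Type*} [Fintype ι] (b : Basis ι K V) {f : F}
    (hf : f ∈ V) : f = ∑ i, b.repr ⟨f, hf⟩ i • ((b i : V) : F) := by
  conv_lhs => rw [show f = ((⟨f, hf⟩ : V) : F) from rfl, ← b.sum_repr ⟨f, hf⟩]
  rw [Submodule.coe_sum]
  rfl

theorem redSpace_eq_span {V : Submodule K F} {ι : Type*} [Fintype ι] (b : Basis ι K V)
    (hb : ∀ i, ((b i : V) : F) ∈ X.O)
    (hli : LinearIndependent k (fun i => X.r ((b i : V) : F))) :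
    X.redSpace V = Submodule.span k (Set.range fun i => X.r ((b i : V) : F)) := by
  apply le_antisymm
  · rintro _ ⟨f, hf, hfO, rfl⟩
    have h1 := eq_sum_repr b hf
    have hc : ∀ i, b.repr ⟨f, hf⟩ i ∈ X.A := fun i => X.coord_mem hb hli (h1 ▸ hfO) i
    rw [h1, X.r_sum Finset.univ _ (fun i _ => X.smul_mem (hc i) (hb i))]
    refine Submodule.sum_mem _ fun i _ => ?_
    rw [X.r_smul (hc i) (hb i)]
    exact Submodule.smul_mem _ _ (Submodule.subset_span ⟨i, rfl⟩)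
  · rw [Submodule.span_le]
    rintro _ ⟨i, rfl⟩
    exact ⟨_, (b i).2, hb i, rfl⟩

theorem finrank_redSpace (V : Submodule K F) [FiniteDimensional K V] :
    finrank k (X.redSpace V) = finrank K V := by
  obtain ⟨b, hb, hli⟩ := X.exists_ortho V
  rw [X.redSpace_eq_span b hb hli, finrank_span_eq_card hli, Fintype.card_fin]

instance finiteDimensional_redSpace (V : Submodule K F) [FiniteDimensional K V] :
    FiniteDimensional k (X.redSpace V) := by
  obtain ⟨b, hb, hli⟩ := X.exists_ortho V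
  rw [X.redSpace_eq_span b hb hli]
  exact FiniteDimensional.span_of_finite k (Set.finite_range _)

/-! ### The integral lattices -/

/-- the `A`-lattice `V ∩ O`. -/
def lat (V : Submodule K F) : Submodule X.A F where
  carrier := {f | f ∈ V ∧ f ∈ X.O}
  zero_mem' := ⟨V.zero_mem, X.O.zero_mem⟩
  add_mem' := fun ha hb => ⟨V.add_mem ha.1 hb.1, X.O.add_mem ha.2 hb.2⟩
  smul_mem' := fun c _ hf => ⟨V.smul_mem (c : K) hf.1, X.smul_mem c.2 hf.2⟩

theorem mem_lat {V : Submodule K F} {f : F} : f ∈ X.lat V ↔ f ∈ V ∧ f ∈ X.O := Iff.rfl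

theorem lat_fg (V : Submodule K F) [FiniteDimensional K V] : (X.lat V).FG := by
  classical
  obtain ⟨b, hb, hli⟩ := X.exists_ortho V
  refine ⟨Finset.univ.image fun i => ((b i : V) : F), ?_⟩
  apply le_antisymm
  · rw [Submodule.span_le]
    intro f hf
    simp only [Finset.coe_image, Finset.coe_univ, Set.image_univ, Set.mem_range] at hf
    obtain ⟨i, rfl⟩ := hf
    exact ⟨(b i).2, hb i⟩
  · rintro f ⟨hf, hfO⟩
    have h1 := eq_sum_repr b hf
    have hc : ∀ i, b.repr ⟨f, hf⟩ i ∈ X.A := fun i => X.coord_mem hb hli (h1 ▸ hfO) i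
    rw [h1]
    refine Submodule.sum_mem _ fun i _ => ?_
    have : b.repr ⟨f, hf⟩ i • ((b i : V) : F)
        = (⟨b.repr ⟨f, hf⟩ i, hc i⟩ : X.A) • ((b i : V) : F) := rfl
    rw [this]
    exact Submodule.smul_mem _ _ (Submodule.subset_span (by simp))

theorem maximalIdeal_le_jacobson :
    IsLocalRing.maximalIdeal X.A ≤ (⊥ : Ideal X.A).jacobson :=
  (IsLocalRing.jacobson_eq_maximalIdeal ⊥ bot_ne_top).symm.le

/-- (X): the lattice of `W'` is the sum of the lattices of `W₁` and `W₂`. -/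
theorem exists_add_of_mem {W₀ W₁ W₂ W' : Submodule K F} [FiniteDimensional K W']
    (h₁ : W₁ ≤ W') (h₂ : W₂ ≤ W') (h₀ : W₀ ≤ W')
    (hdim : finrank K W' + finrank K W₀ ≤ finrank K W₁ + finrank K W₂)
    (hcart : ∀ f ∈ W₁, f ∈ X.O → ∀ g ∈ W₂, g ∈ X.O → X.r f = X.r g →
      ∃ h ∈ W₀, h ∈ X.O ∧ X.r h = X.r f) {x : F} (hx : x ∈ W') (hxO : x ∈ X.O) :
    ∃ y ∈ W₁, ∃ z ∈ W₂, y ∈ X.O ∧ z ∈ X.O ∧ x = y + z := by
  have : FiniteDimensional K W₁ := Submodule.finiteDimensional_of_le h₁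
  have : FiniteDimensional K W₂ := Submodule.finiteDimensional_of_le h₂
  have : FiniteDimensional K W₀ := Submodule.finiteDimensional_of_le h₀
  have hinf : X.redSpace W₁ ⊓ X.redSpace W₂ ≤ X.redSpace W₀ := by
    rintro _ ⟨⟨f, hf, hfO, rfl⟩, ⟨g, hg, hgO, hfg⟩⟩
    exact hcart f hf hfO g hg hgO hfg.symm
  have hle : X.redSpace W₁ ⊔ X.redSpace W₂ ≤ X.redSpace W' :=
    sup_le (X.redSpace_mono h₁) (X.redSpace_mono h₂)
  have heq : X.redSpace W₁ ⊔ X.redSpace W₂ = X.redSpace W' := by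
    apply Submodule.eq_of_le_of_finrank_le hle
    have h3 := Submodule.finrank_sup_add_finrank_inf_eq (X.redSpace W₁) (X.redSpace W₂)
    have h4 := Submodule.finrank_mono hinf
    rw [X.finrank_redSpace] at h3 h4 ⊢
    rw [X.finrank_redSpace] at h3
    omega
  have hsub : X.lat W' ≤ (X.lat W₁ ⊔ X.lat W₂) ⊔ IsLocalRing.maximalIdeal X.A • X.lat W' := by
    rintro f ⟨hf, hfO⟩
    have h5 : X.r f ∈ X.redSpace W₁ ⊔ X.redSpace W₂ := by
      rw [heq]
      exact ⟨f, hf, hfO, rfl⟩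
    obtain ⟨_, ⟨y, hy, hyO, rfl⟩, _, ⟨z, hz, hzO, rfl⟩, hyz⟩ := Submodule.mem_sup.mp h5
    have hε : X.r (f - y - z) = 0 := by
      rw [X.r_sub (X.O.sub_mem hfO hyO) hzO, X.r_sub hfO hyO, ← hyz]
      ring
    have hεO : f - y - z ∈ X.O := X.O.sub_mem (X.O.sub_mem hfO hyO) hzO
    obtain ⟨c, hc, g, hg, hcg⟩ := X.exists_of_r_eq_zero hεO hε
    have hεm : f - y - z ∈ IsLocalRing.maximalIdeal X.A • X.lat W' := by
      rcases eq_or_ne c 0 with rfl | hc0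
      · rw [hcg, zero_smul]
        exact Submodule.zero_mem _
      have hgW : g ∈ W' := by
        have : g = c⁻¹ • (f - y - z) := by
          rw [hcg, ← mul_smul, inv_mul_cancel₀ hc0, one_smul]
        rw [this]
        exact W'.smul_mem _ (W'.sub_mem (W'.sub_mem hf (h₁ hy)) (h₂ hz))
      have hcm : (⟨c, X.mem_of_nonunits hc⟩ : X.A) ∈ IsLocalRing.maximalIdeal X.A := by
        rw [← ValuationSubring.coe_mem_nonunits_iff]
        exact hc
      rw [hcg]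
      exact Submodule.smul_mem_smul hcm (show g ∈ X.lat W' from ⟨hgW, hg⟩)
    have h6 : f = (y + z) + (f - y - z) := by ring
    rw [h6]
    exact Submodule.add_mem_sup (Submodule.add_mem_sup ⟨hy, hyO⟩ ⟨hz, hzO⟩) hεm
  have hfin := Submodule.le_of_le_smul_of_le_jacobson_bot (X.lat_fg W')
    X.maximalIdeal_le_jacobson hsub
  obtain ⟨y, hy, z, hz, hyz⟩ := Submodule.mem_sup.mp (hfin (show x ∈ X.lat W' from ⟨hx, hxO⟩))
  exact ⟨y, hy.1, z, hz.1, hy.2, hz.2, hyz.symm⟩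

/-- (Y): glueing of two approximations. -/
theorem exists_glue {W₀ W₁ W₂ W' : Submodule K F} [FiniteDimensional K W']
    (h₁ : W₁ ≤ W') (h₂ : W₂ ≤ W') (h₀ : W₀ ≤ W') (hinf : W₁ ⊓ W₂ ≤ W₀)
    (hdim : finrank K W' + finrank K W₀ ≤ finrank K W₁ + finrank K W₂)
    (hcart : ∀ f ∈ W₁, f ∈ X.O → ∀ g ∈ W₂, g ∈ X.O → X.r f = X.r g →
      ∃ h ∈ W₀, h ∈ X.O ∧ X.r h = X.r f) {f g u : F} {c : K} (hc : c ∈ X.A)
    (hf : f ∈ W₁) (hfO : f ∈ X.O) (hg : g ∈ W₂) (hu : u ∈ X.O)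
    (hfg : f - g = c • u) :
    ∃ h ∈ W₀, h ∈ X.O ∧ (∃ v ∈ X.O, f - h = c • v) ∧ ∃ v ∈ X.O, g - h = c • v := by
  rcases eq_or_ne c 0 with rfl | hc0
  · rw [zero_smul, sub_eq_zero] at hfg
    subst hfg
    exact ⟨f, hinf ⟨hf, hg⟩, hfO, ⟨0, X.O.zero_mem, by simp⟩, ⟨0, X.O.zero_mem, by simp⟩⟩
  have huW : u ∈ W' := by
    have : u = c⁻¹ • (f - g) := by
      rw [hfg, ← mul_smul, inv_mul_cancel₀ hc0, one_smul]
    rw [this]
    exact W'.smul_mem _ (W'.sub_mem (h₁ hf) (h₂ hg))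
  obtain ⟨y, hy, z, hz, hyO, hzO, hyz⟩ :=
    X.exists_add_of_mem h₁ h₂ h₀ hdim hcart huW hu
  have h3 : f - c • y = g + c • z := by
    rw [hyz, smul_add] at hfg
    linear_combination hfg
  refine ⟨f - c • y, hinf ⟨W₁.sub_mem hf (W₁.smul_mem _ hy), ?_⟩,
    X.O.sub_mem hfO (X.smul_mem hc hyO), ⟨y, hyO, by ring⟩, ⟨-z, X.O.neg_mem hzO, ?_⟩⟩
  · rw [h3]
    exact W₂.add_mem hg (W₂.smul_mem _ hz)
  · rw [h3, smul_neg]
    ring

/-! ### Newton iteration -/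

theorem inv_natCast_mem {n : ℕ} (hn : (n : k) ≠ 0) : ((n : K))⁻¹ ∈ X.A := by
  have h1 : X.res (n : X.A) ≠ 0 := by rwa [map_natCast]
  have h2 : ((n : X.A) : K) ∉ X.A.nonunits := fun h => h1 ((X.res_eq_zero_iff _).mpr h)
  have h3 : ((n : X.A) : K) = (n : K) := by simp
  rw [h3, ValuationSubring.mem_nonunits_iff, not_lt] at h2
  rw [← ValuationSubring.valuation_le_one_iff, map_inv₀]
  exact inv_le_one_of_one_le₀ h2

include X in
theorem natCast_ne_zero {n : ℕ} (hn : (n : k) ≠ 0) : (n : K) ≠ 0 := by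
  intro h
  have h1 : X.res (n : X.A) ≠ 0 := by rwa [map_natCast]
  apply h1
  have h2 : (n : X.A) = 0 := by
    apply Subtype.ext
    simpa using h
  rw [h2, map_zero]

/-- (Z): one Newton step. -/
theorem newton_step {n : ℕ} (hn : (n : k) ≠ 0) {φ h u : F} {c : K} (hc : c ∈ X.A)
    (hu : u ∈ X.O) (hh : h ^ n = φ * (1 + c • u)) :
    ∃ v ∈ X.O, (h - (c / n) • (h * u)) ^ n = φ * (1 + (c ^ 2) • v) := by
  have hnK := X.natCast_ne_zero hn
  have hni := X.inv_natCast_mem hn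
  have hcn : c / n ∈ X.A := by
    rw [div_eq_mul_inv]
    exact X.A.mul_mem _ _ hc hni
  let U : X.O := ⟨u, hu⟩
  let C : X.O := ⟨algebraMap K F c, X.algebraMap_mem c hc⟩
  let N : X.O := ⟨algebraMap K F (n : K)⁻¹, X.algebraMap_mem _ hni⟩
  have hN : (n : X.O) * N = 1 := by
    apply Subtype.ext
    push_cast
    rw [← map_natCast (algebraMap K F) n, ← map_mul, mul_inv_cancel₀ hnK, map_one]
  obtain ⟨κ, hκ⟩ := Polynomial.powAddExpansion (1 : X.O) (-(C * N * U)) n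
  let V : X.O := -U ^ 2 + (1 + C * U) * κ * N ^ 2 * U ^ 2
  refine ⟨V, V.2, ?_⟩
  have key : (1 + C * U) * (1 + -(C * N * U)) ^ n = 1 + C ^ 2 * V := by
    rw [hκ, one_pow, one_pow, mul_one]
    have : (n : X.O) * -(C * N * U) = -(C * U) := by
      linear_combination (-(C * U)) * hN
    rw [this]
    simp only [V]
    ring
  have key2 : (1 + c • u) * (1 - (c / n) • u) ^ n = 1 + (c ^ 2) • (V : F) := by
    have h5 := congrArg (Subtype.val : X.O → F) key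
    push_cast at h5
    have hC : (C : F) = algebraMap K F c := rfl
    have hNN : (N : F) = algebraMap K F (n : K)⁻¹ := rfl
    have hUU : (U : F) = u := rfl
    rw [hC, hNN, hUU] at h5
    rw [Algebra.smul_def, Algebra.smul_def, Algebra.smul_def, div_eq_mul_inv, map_mul, map_pow,
      sub_eq_add_neg]
    exact h5
  have h6 : h - (c / n) • (h * u) = h * (1 - (c / n) • u) := by
    rw [mul_sub, mul_one, mul_smul_comm]
  rw [h6, mul_pow, hh, mul_assoc, key2]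

/-- (W): two approximate `n`-th roots of `φ` with reduction `1` agree. -/
theorem sub_mem_of_pow [Nontrivial E] {n : ℕ} (hn : (n : k) ≠ 0) {φ f g u v : F} {c : K}
    (hφ : φ ∈ X.O) (hf : f ∈ X.O) (hg : g ∈ X.O) (hu : u ∈ X.O) (hv : v ∈ X.O)
    (hrf : X.r f = 1) (hrg : X.r g = 1)
    (hfu : f ^ n = φ * (1 + c • u)) (hgv : g ^ n = φ * (1 + c • v)) :
    ∃ w ∈ X.O, f - g = c • w := by
  set S : F := ∑ i ∈ Finset.range n, f ^ i * g ^ (n - 1 - i) with hS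
  have hSO : S ∈ X.O := X.O.sum_mem fun i _ => X.O.mul_mem (X.O.pow_mem hf _) (X.O.pow_mem hg _)
  have hrS : X.r S = algebraMap k E (n : k) := by
    rw [hS, X.r_sum _ _ fun i _ => X.O.mul_mem (X.O.pow_mem hf _) (X.O.pow_mem hg _)]
    have : ∀ i ∈ Finset.range n, X.r (f ^ i * g ^ (n - 1 - i)) = 1 := by
      intro i _
      rw [X.r_mul (X.O.pow_mem hf _) (X.O.pow_mem hg _), X.r_pow hf, X.r_pow hg, hrf, hrg]
      simp
    rw [Finset.sum_congr rfl this]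
    simp
  have hunit : IsUnit (X.r S) := by
    rw [hrS]
    exact (isUnit_iff_ne_zero.mpr hn).map (algebraMap k E)
  have hS0 : S ≠ 0 := by
    rintro h0
    rw [h0, X.r_zero] at hunit
    exact not_isUnit_zero hunit
  have hSinv : S⁻¹ ∈ X.O := by
    have h7 := X.inv_mem ⟨S, hSO⟩
    rw [← X.r_of_mem hSO] at h7
    exact h7 hunit
  have hmul : (f - g) * S = c • (φ * (u - v)) := by
    have h8 : S * (f - g) = f ^ n - g ^ n := by
      rw [hS]
      exact (Commute.all f g).geom_sum₂_mul n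
    rw [mul_comm, h8, hfu, hgv, Algebra.smul_def, Algebra.smul_def, Algebra.smul_def]
    ring
  refine ⟨φ * (u - v) * S⁻¹, X.O.mul_mem (X.O.mul_mem hφ (X.O.sub_mem hu hv)) hSinv, ?_⟩
  rw [← smul_mul_assoc, ← hmul, mul_assoc, mul_inv_cancel₀ hS0, mul_one]

/-! ### The main theorem -/

/-- The data of the twisted Riemann--Roch spaces. -/
structure Twist (X : Datum K F k E) (n : ℕ) (φ : F) (L L' : ℕ → ℕ → Submodule K F) (r₀ : ℕ) :
    Prop where
  fin : ∀ a b, FiniteDimensional K (L a b)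
  mono : ∀ {a b a' b'}, a ≤ a' → b ≤ b' → L a b ≤ L a' b'
  mono' : ∀ {a b a' b'}, a ≤ a' → b ≤ b' → L' a b ≤ L' a' b'
  inf_le : ∀ {a b a' b'}, a ≤ a' → b ≤ b' → L a' b ⊓ L a b' ≤ L a b
  dim : ∀ {a b a' b'}, a ≤ a' → b ≤ b' → r₀ ≤ a + b →
    finrank K (L a' b') + finrank K (L a b) ≤ finrank K (L a' b) + finrank K (L a b')
  mul_mem : ∀ {a b c d f g}, f ∈ L a b → g ∈ L' c d → f * g ∈ L (a + c) (b + d)
  pow_mem : ∀ {a b f}, f ∈ L a b → f ^ n / φ ∈ L' (n * a) (n * b)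
  one_mem : (1 : F) ∈ L' 0 0
  cart : ∀ {a b a' b' f g}, a ≤ a' → b ≤ b' → r₀ ≤ a + b → f ∈ L a' b → f ∈ X.O →
    g ∈ L a b' → g ∈ X.O → X.r f = X.r g → ∃ h ∈ L a b, h ∈ X.O ∧ X.r h = X.r f

variable {X}

section Newton

variable {n : ℕ} {φ : F} {L L' : ℕ → ℕ → Submodule K F} {r₀ : ℕ}

/-- The Newton iteration in the chart `b = 0` or `a = 0`: improve the approximation. -/
theorem Twist.improve (T : X.Twist n φ L L' r₀) (hn : (n : k) ≠ 0) (hφ0 : φ ≠ 0)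
    {c : K} (hc : c ∈ X.A.nonunits)
    {a b : ℕ} {f u : F} (hf : f ∈ L a b) (hfO : f ∈ X.O) (hrf : X.r f = 1) (hu : u ∈ X.O)
    (hfu : f ^ n = φ * (1 + c • u)) :
    ∃ f' ∈ L (a + n * a) (b + n * b), f' ∈ X.O ∧ X.r f' = 1 ∧
      ∃ v ∈ X.O, f' ^ n = φ * (1 + (c ^ 2) • v) := by
  have hcA := X.mem_of_nonunits hc
  have hcn : c / n ∈ X.A.nonunits := by
    rw [div_eq_mul_inv]
    exact X.mul_mem_nonunits hc (X.inv_natCast_mem hn)
  rcases eq_or_ne c 0 with rfl | hc0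
  · refine ⟨f, T.mono (by omega) (by omega) hf, hfO, hrf, u, hu, ?_⟩
    rw [hfu]
    simp
  have huL : u ∈ L' (n * a) (n * b) := by
    have h1 : u = c⁻¹ • (f ^ n / φ - 1) := by
      rw [hfu, mul_div_cancel_left₀ _ hφ0, add_sub_cancel_left, ← mul_smul, inv_mul_cancel₀ hc0,
        one_smul]
    rw [h1]
    exact (L' _ _).smul_mem _ ((L' _ _).sub_mem (T.pow_mem hf)
      (T.mono' (Nat.zero_le _) (Nat.zero_le _) T.one_mem))
  obtain ⟨v, hv, hstep⟩ := X.newton_step hn hcA hu hfu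
  have hfuO : f * u ∈ X.O := X.O.mul_mem hfO hu
  refine ⟨f - (c / n) • (f * u), ?_, X.O.sub_mem hfO (X.smul_mem (X.mem_of_nonunits hcn) hfuO), ?_,
    v, hv, hstep⟩
  · exact (L _ _).sub_mem (T.mono (by omega) (by omega) hf)
      ((L _ _).smul_mem _ (T.mul_mem hf huL))
  · rw [X.r_sub hfO (X.smul_mem (X.mem_of_nonunits hcn) hfuO), X.r_smul_nonunit hcn hfuO, hrf,
      sub_zero]

theorem Twist.iterate_left (T : X.Twist n φ L L' r₀) (hn : (n : k) ≠ 0) (hφ0 : φ ≠ 0)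
    {c : K} (hc : c ∈ X.A.nonunits)
    {a : ℕ} {f u : F} (hf : f ∈ L a 0) (hfO : f ∈ X.O) (hrf : X.r f = 1) (hu : u ∈ X.O)
    (hfu : f ^ n = φ * (1 + c • u)) (j : ℕ) :
    ∃ s, ∃ f' ∈ L s 0, f' ∈ X.O ∧ X.r f' = 1 ∧
      ∃ v ∈ X.O, f' ^ n = φ * (1 + (c ^ (2 ^ j)) • v) := by
  induction j with
  | zero => exact ⟨a, f, hf, hfO, hrf, u, hu, by simpa using hfu⟩
  | succ j ih =>
    obtain ⟨s, f', hf', hfO', hrf', v, hv, hfv⟩ := ih
    obtain ⟨g, hg, hgO, hrg, w, hw, hgw⟩ :=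
      T.improve hn hφ0 (X.pow_mem_nonunits hc (n := 2 ^ j) (by positivity)) hf' hfO' hrf' hv hfv
    refine ⟨s + n * s, g, by simpa using hg, hgO, hrg, w, hw, ?_⟩
    rw [hgw, ← pow_mul, ← pow_succ]

theorem Twist.iterate_right (T : X.Twist n φ L L' r₀) (hn : (n : k) ≠ 0) (hφ0 : φ ≠ 0)
    {c : K} (hc : c ∈ X.A.nonunits)
    {a : ℕ} {f u : F} (hf : f ∈ L 0 a) (hfO : f ∈ X.O) (hrf : X.r f = 1) (hu : u ∈ X.O)
    (hfu : f ^ n = φ * (1 + c • u)) (j : ℕ) :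
    ∃ s, ∃ f' ∈ L 0 s, f' ∈ X.O ∧ X.r f' = 1 ∧
      ∃ v ∈ X.O, f' ^ n = φ * (1 + (c ^ (2 ^ j)) • v) := by
  induction j with
  | zero => exact ⟨a, f, hf, hfO, hrf, u, hu, by simpa using hfu⟩
  | succ j ih =>
    obtain ⟨s, f', hf', hfO', hrf', v, hv, hfv⟩ := ih
    obtain ⟨g, hg, hgO, hrg, w, hw, hgw⟩ :=
      T.improve hn hφ0 (X.pow_mem_nonunits hc (n := 2 ^ j) (by positivity)) hf' hfO' hrf' hv hfv
    refine ⟨s + n * s, g, by simpa using hg, hgO, hrg, w, hw, ?_⟩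
    rw [hgw, ← pow_mul, ← pow_succ]

/-- an element with reduction `1` is an approximate root. -/
theorem exists_approx {φ f : F} (n : ℕ) (hφ0 : φ ≠ 0) (hφinv : φ⁻¹ ∈ X.O) (hrφ : X.r φ⁻¹ = 1)
    (hfO : f ∈ X.O) (hrf : X.r f = 1) :
    ∃ c ∈ X.A.nonunits, ∃ u ∈ X.O, f ^ n = φ * (1 + c • u) := by
  have h1 : f ^ n / φ - 1 ∈ X.O := by
    rw [div_eq_mul_inv]
    exact X.O.sub_mem (X.O.mul_mem (X.O.pow_mem hfO n) hφinv) X.O.one_mem
  have h2 : X.r (f ^ n / φ - 1) = 0 := by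
    rw [div_eq_mul_inv, X.r_sub (X.O.mul_mem (X.O.pow_mem hfO n) hφinv) X.O.one_mem,
      X.r_mul (X.O.pow_mem hfO n) hφinv, X.r_pow hfO, hrf, hrφ, X.r_one]
    simp
  obtain ⟨c, hc, u, hu, hcu⟩ := X.exists_of_r_eq_zero h1 h2
  refine ⟨c, hc, u, hu, ?_⟩
  rw [← hcu, add_sub_cancel, mul_div_cancel₀ _ hφ0]

/-- Bounded inverse: if `W₁ ⊓ W₂ = 0` then an element of `W₁` close to `W₂` is small. -/
theorem exists_bound (W₁ W₂ : Submodule K F) [FiniteDimensional K W₁] [FiniteDimensional K W₂]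
    (hinf : W₁ ⊓ W₂ = ⊥) :
    ∃ d : K, d ≠ 0 ∧ ∀ c : K, c / d ∈ X.A.nonunits → ∀ f ∈ W₁, ∀ g ∈ W₂, ∀ u ∈ X.O,
      f - g = c • u → X.r f = 0 := by
  classical
  obtain ⟨b, hb, hli⟩ := X.exists_ortho (W₁ ⊔ W₂)
  have hsplit : ∀ i, ∃ y ∈ W₁, ∃ z ∈ W₂, y + z = ((b i : (W₁ ⊔ W₂ : Submodule K F)) : F) :=
    fun i => Submodule.mem_sup.mp (b i).2
  choose y hy z hz hyz using hsplit
  choose d hd0 hdA hdO using fun i => X.exists_smul_mem (y i)
  refine ⟨∏ i, d i, Finset.prod_ne_zero_iff.mpr fun i _ => hd0 i, ?_⟩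
  intro c hc f hf g hg u hu hfg
  have hfgW : f - g ∈ W₁ ⊔ W₂ :=
    Submodule.sub_mem _ (Submodule.mem_sup_left hf) (Submodule.mem_sup_right hg)
  have hrepr := eq_sum_repr b hfgW
  obtain ⟨a, haA, ha⟩ := X.coord_dvd hb hli hu (hrepr.symm.trans hfg)
  set e := fun i => b.repr ⟨f - g, hfgW⟩ i with he
  have hsum : f - ∑ i, e i • y i = g + ∑ i, e i • z i := by
    have h1 : f - g = ∑ i, e i • y i + ∑ i, e i • z i := by
      rw [← Finset.sum_add_distrib, hrepr]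
      refine Finset.sum_congr rfl fun i _ => ?_
      rw [← smul_add, hyz]
    linear_combination h1
  have h0 : f - ∑ i, e i • y i = 0 := by
    have h1 : f - ∑ i, e i • y i ∈ W₁ ⊓ W₂ := by
      refine ⟨W₁.sub_mem hf (W₁.sum_mem fun i _ => W₁.smul_mem _ (hy i)), ?_⟩
      rw [hsum]
      exact W₂.add_mem hg (W₂.sum_mem fun i _ => W₂.smul_mem _ (hz i))
    rw [hinf] at h1
    exact h1
  rw [sub_eq_zero] at h0
  set D : K := ∏ i, d i with hD
  have hD0 : D ≠ 0 := Finset.prod_ne_zero_iff.mpr fun i _ => hd0 i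
  have hyO : ∀ i, D • y i ∈ X.O := by
    intro i
    rw [hD, ← Finset.prod_erase_mul _ _ (Finset.mem_univ i), mul_smul]
    exact X.smul_mem (prod_mem fun j _ => hdA j) (hdO i)
  have h3 : f = (c / D) • ∑ i, a i • (D • y i) := by
    rw [h0, Finset.smul_sum]
    refine Finset.sum_congr rfl fun i _ => ?_
    have : e i = c * a i := ha i
    rw [this, ← mul_smul, ← mul_smul]
    congr 1
    field_simp
  rw [h3]
  exact X.r_smul_nonunit hc (X.O.sum_mem fun i _ => X.smul_mem (haA i) (hyO i))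

/-- **Main theorem**: triviality of the torsion class. -/
theorem Twist.exists_ne_zero [Nontrivial E] (T : X.Twist n φ L L' r₀) (hn : (n : k) ≠ 0)
    (hφ : φ ∈ X.O) (hrφ : X.r φ = 1) {s₁ s₂ : ℕ}
    (h₁ : ∃ f ∈ L s₁ 0, f ∈ X.O ∧ X.r f = 1) (h₂ : ∃ f ∈ L 0 s₂, f ∈ X.O ∧ X.r f = 1) :
    ∃ f ∈ L 0 0, f ≠ 0 := by
  by_contra hcon
  push Not at hcon
  have hbot : L 0 0 = ⊥ := (Submodule.eq_bot_iff _).mpr hcon
  have hφ0 : φ ≠ 0 := by
    rintro rfl
    rw [X.r_zero] at hrφ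
    exact zero_ne_one hrφ
  have hφinv : φ⁻¹ ∈ X.O := by
    have h := X.inv_mem ⟨φ, hφ⟩
    rw [← X.r_of_mem hφ, hrφ] at h
    exact h isUnit_one
  have hrφinv : X.r φ⁻¹ = 1 := by
    have h := X.r_mul hφ hφinv
    rw [mul_inv_cancel₀ hφ0, X.r_one, hrφ, one_mul] at h
    exact h.symm
  obtain ⟨f₁, hf₁, hf₁O, hrf₁⟩ := h₁
  obtain ⟨f₂, hf₂, hf₂O, hrf₂⟩ := h₂
  obtain ⟨c₁, hc₁, u₁, hu₁, hfu₁⟩ := exists_approx n hφ0 hφinv hrφinv hf₁O hrf₁
  obtain ⟨c₂, hc₂, u₂, hu₂, hfu₂⟩ := exists_approx n hφ0 hφinv hrφinv hf₂O hrf₂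
  -- common constant
  obtain ⟨c, hc, v₁, hv₁, hfv₁, v₂, hv₂, hfv₂⟩ : ∃ c ∈ X.A.nonunits,
      ∃ v₁ ∈ X.O, f₁ ^ n = φ * (1 + c • v₁) ∧ ∃ v₂ ∈ X.O, f₂ ^ n = φ * (1 + c • v₂) := by
    rcases eq_or_ne c₁ 0 with h0 | h10
    · refine ⟨c₂, hc₂, 0, X.O.zero_mem, ?_, u₂, hu₂, hfu₂⟩
      rw [hfu₁, h0]; simp
    rcases eq_or_ne c₂ 0 with h0 | h20
    · refine ⟨c₁, hc₁, u₁, hu₁, hfu₁, 0, X.O.zero_mem, ?_⟩
      rw [hfu₂, h0]; simp
    rcases X.A.mem_or_inv_mem (c₁ / c₂) with h | h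
    · refine ⟨c₂, hc₂, (c₁ / c₂) • u₁, X.smul_mem h hu₁, ?_, u₂, hu₂, hfu₂⟩
      rw [hfu₁, ← mul_smul, mul_div_cancel₀ _ h20]
    · rw [inv_div] at h
      refine ⟨c₁, hc₁, u₁, hu₁, hfu₁, (c₂ / c₁) • u₂, X.smul_mem h hu₂, ?_⟩
      rw [hfu₂, ← mul_smul, mul_div_cancel₀ _ h10]
  have hfin : ∀ a b, FiniteDimensional K (L a b) := T.fin
  have hinf0 : L r₀ 0 ⊓ L 0 r₀ = ⊥ := by
    rw [← le_bot_iff, ← hbot]
    exact T.inf_le (Nat.zero_le _) (Nat.zero_le _)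
  obtain ⟨d, hd0, hbound⟩ := exists_bound (X := X) (L r₀ 0) (L 0 r₀) hinf0
  obtain ⟨N, hN⟩ := X.arch c hc d hd0
  obtain ⟨t₁, g₁, hg₁, hg₁O, hrg₁, w₁, hw₁, hgw₁⟩ :=
    T.iterate_left hn hφ0 hc hf₁ hf₁O hrf₁ hv₁ hfv₁ (N + 1)
  obtain ⟨t₂, g₂, hg₂, hg₂O, hrg₂, w₂, hw₂, hgw₂⟩ :=
    T.iterate_right hn hφ0 hc hf₂ hf₂O hrf₂ hv₂ hfv₂ (N + 1)
  set C : K := c ^ (2 ^ (N + 1)) with hC
  have hCn : C ∈ X.A.nonunits := X.pow_mem_nonunits hc (by positivity)
  have hCA := X.mem_of_nonunits hCn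
  have hCd : C / d ∈ X.A.nonunits := by
    have h2 : N + 1 ≤ 2 ^ (N + 1) := (Nat.lt_two_pow_self (n := N + 1)).le
    obtain ⟨m, hm⟩ := Nat.exists_eq_add_of_le h2
    have : C / d = (c * (c ^ N / d)) * c ^ m := by
      rw [hC, hm, pow_add, pow_succ]
      ring
    rw [this]
    exact X.mul_mem_nonunits (X.mul_mem_nonunits hc hN)
      (_root_.pow_mem (X.mem_of_nonunits hc) m)
  obtain ⟨w, hw, hgg⟩ := X.sub_mem_of_pow hn hφ hg₁O hg₂O hw₁ hw₂ hrg₁ hrg₂ hgw₁ hgw₂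
  -- common pole order
  set s := t₁ + t₂ + r₀ with hs
  -- glue in the first chart
  obtain ⟨p₁, hp₁, hp₁O, ⟨x₁, hx₁, hgp₁⟩, -⟩ :=
    X.exists_glue (W₀ := L r₀ 0) (W₁ := L s 0) (W₂ := L r₀ s) (W' := L s s)
      (T.mono le_rfl (by omega)) (T.mono (by omega) le_rfl) (T.mono (by omega) (by omega))
      (T.inf_le (by omega) (by omega))
      (T.dim (by omega) (by omega) (by omega))
      (fun f hf hfO g hg hgO h => T.cart (by omega) (by omega) (by omega) hf hfO hg hgO h)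
      hCA (T.mono (by omega) le_rfl hg₁) hg₁O (T.mono (by omega) (by omega) hg₂) hw hgg
  obtain ⟨p₂, hp₂, hp₂O, -, ⟨x₂, hx₂, hgp₂⟩⟩ :=
    X.exists_glue (W₀ := L 0 r₀) (W₁ := L s r₀) (W₂ := L 0 s) (W' := L s s)
      (T.mono le_rfl (by omega)) (T.mono (by omega) le_rfl) (T.mono (by omega) (by omega))
      (T.inf_le (by omega) (by omega))
      (T.dim (by omega) (by omega) (by omega))
      (fun f hf hfO g hg hgO h => T.cart (by omega) (by omega) (by omega) hf hfO hg hgO h)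
      hCA (T.mono (by omega) (by omega) hg₁) hg₁O (T.mono le_rfl (by omega) hg₂) hw hgg
  have hpp : p₁ - p₂ = C • (w - x₁ + x₂) := by
    rw [smul_add, smul_sub, ← hgg, ← hgp₁, ← hgp₂]
    ring
  have hr0 : X.r p₁ = 0 :=
    hbound C hCd p₁ hp₁ p₂ hp₂ _ (X.O.add_mem (X.O.sub_mem hw hx₁) hx₂) hpp
  have hr1 : X.r p₁ = 1 := by
    have h3 : p₁ = g₁ - C • x₁ := by rw [← hgp₁]; ring
    rw [h3, X.r_sub hg₁O (X.smul_mem hCA hx₁), X.r_smul_nonunit hCn hx₁, hrg₁, sub_zero]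
  rw [hr0] at hr1
  exact zero_ne_one hr1

end Newton

end Datum

end Fermat.Agent.QX
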